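import Fermat.Agent.Lower.Lift.Defs
import Fermat.Agent.Lower.Levels.BaseLevel
import Fermat.Agent.Lower.Levels.ConstructFrame

/-!
# The lattice of a frame at level `N`

`baseOf` is the Hecke lattice of a frame at level `N`, with its action and embedding described by
`baseOf_act` and `coe_baseOf_emb`.  Small glue: a map from the `p`-adic integers to the
coefficient ring (`nonempty_padicInt_hom`) and the residual hypotheses at the primes of the level
(`resHyp_of_residual`).
-/

set_option autoImplicit false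
set_option linter.style.haveILetI false
set_option linter.unusedSectionVars false

noncomputable section

open CongruenceSubgroup CuspForm
open scoped MatrixGroups Matrix TensorProduct

namespace FLTAgent.Lower.Lift

open IsLocalRing (maximalIdeal ResidueField residue)
open FLTAgent.Lower FLTAgent.Lower.Levels

local notation "ℚ̄" => AlgebraicClosure ℚ
local notation "Γℚ" => (AlgebraicClosure ℚ ≃ₐ[ℚ] AlgebraicClosure ℚ)

variable {p : ℕ} [Fact p.Prime] {O : Type} [CommRing O] [IsDomain O] [IsDiscreteValuationRing O]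
  [IsAdicComplete (maximalIdeal O) O] [Finite (ResidueField O)] [CharZero O]

/-- The `p`-adic integers map to a complete local ring in which `p` is not a unit. -/
theorem nonempty_padicInt_hom (hp : (p : O) ∈ maximalIdeal O) : Nonempty (ℤ_[p] →+* O) := by
  have hdvd : ∀ n : ℕ, ringChar (O ⧸ maximalIdeal O ^ n) ∣ p ^ n := fun n => by
    refine ringChar.dvd ?_
    rw [← map_natCast (Ideal.Quotient.mk (maximalIdeal O ^ n)), Ideal.Quotient.eq_zero_iff_mem,
      Nat.cast_pow]
    exact Ideal.pow_mem_pow hp n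
  let f : (n : ℕ) → ℤ_[p] →+* O ⧸ maximalIdeal O ^ n := fun n =>
    (ZMod.castHom (m := ringChar (O ⧸ maximalIdeal O ^ n)) (hdvd n) _).comp
      (PadicInt.toZModPow n)
  refine ⟨IsAdicComplete.liftRingHom (maximalIdeal O) f fun {m n} hmn => ?_⟩
  show ((Ideal.Quotient.factorPow (maximalIdeal O) hmn).comp ((ZMod.castHom (hdvd n) _))).comp
    (PadicInt.toZModPow n) = _
  rw [RingHom.ext_zmod ((Ideal.Quotient.factorPow (maximalIdeal O) hmn).comp
    (ZMod.castHom (m := ringChar (O ⧸ maximalIdeal O ^ n)) (hdvd n) _))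
    ((ZMod.castHom (m := ringChar (O ⧸ maximalIdeal O ^ m)) (hdvd m) _).comp
      (ZMod.castHom (pow_dvd_pow p hmn) (ZMod (p ^ m)))), RingHom.comp_assoc,
    PadicInt.zmod_cast_comp_toZModPow m n hmn]

variable {ρbar : ResidualGaloisRep (ResidueField O)} {N : ℕ} [NeZero N]

/-- The residual hypotheses at a set containing the primes of the level and `p`. -/
theorem resHyp_of_residual (hp2 : p ≠ 2) (hp : (p : O) ∈ maximalIdeal O) {Smin : Finset ℕ}
    (hres : Residual p Smin ρbar) (hSmin : Smin ⊆ N.primeFactors) {S : Finset ℕ}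
    (hS : levelPrimes p N ⊆ S) : ResHyp p S ρbar where
  ne_two := hp2
  mem := hS (Finset.mem_insert_self _ _)
  char := by rw [← map_natCast (residue O), IsLocalRing.residue_eq_zero_iff]; exact hp
  absIrr := hres.absIrr
  det := hres.det
  big := hres.big
  unramified l hl hlS := hres.unramified l hl
    (fun hm => hlS (hS (Finset.mem_insert_of_mem (hSmin hm))))
    fun he => hlS (hS (he ▸ Finset.mem_insert_self _ _))

theorem mem_levelPrimes_of_dvd {l : ℕ} (hl : l.Prime) (h : l ∣ N) : l ∈ levelPrimes p N :=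
  Finset.mem_insert_of_mem (Nat.mem_primeFactors.mpr ⟨hl, h, NeZero.ne N⟩)

section Base

variable {S : Finset ℕ} {d : ℕ}

/-- The lattice of a frame at level `N`. -/
def baseOf (h : ResHyp p S ρbar) (hN : ∀ l : ℕ, l.Prime → l ∣ N → l ∈ S)
    (F : Frame (1 : (ZMod N)ˣ →* Oˣ) (awPr S) (residue O) (fun l => frobTrace ρbar l.1) d) :
    HeckeLattice p N S ρbar O d :=
  baseLattice F (RingHom.ext fun _ => rfl) (h.parHyp N _ 1 fun _ _ => rfl)
    (j := id)
    { pr_eq := fun _ => rfl
      trace_eq := fun l _ hA _ hφ =>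
        (frobTrace_eq ρbar l.1.2 (h.unramified _ l.1.2 l.2) hA hφ).symm
      p_mem := h.mem
      level_mem := hN }

theorem baseOf_act (h : ResHyp p S ρbar) (hN : ∀ l : ℕ, l.Prime → l ∣ N → l ∈ S)
    (F : Frame (1 : (ZMod N)ˣ →* Oˣ) (awPr S) (residue O) (fun l => frobTrace ρbar l.1) d)
    (s : MvPolynomial (AwayIdx S) O) : (baseOf h hN F).act s = F.mat s := by
  refine (baseLattice_act F _ _ _ s).trans ?_
  rw [Algebra.algebraMap_self, MvPolynomial.map_id, MvPolynomial.rename_id]
  rfl

theorem coe_baseOf_emb (h : ResHyp p S ρbar) (hN : ∀ l : ℕ, l.Prime → l ∣ N → l ∈ S)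
    (F : Frame (1 : (ZMod N)ˣ →* Oˣ) (awPr S) (residue O) (fun l => frobTrace ρbar l.1) d)
    (x : Fin d → O) :
    ((baseOf h hN F).emb x : Additive (Gamma0 N) →+ O) = h1Triv N O O (F.combo x) := rfl

end Base

end FLTAgent.Lower.Lift
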