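import Fermat.Agent.Lower.Levels.AuxFrame
import Fermat.Agent.Lower.Lift.HeckeMod.BaseModule
import Fermat.Agent.Lower.Lift.OrdCond

/-!
# The levels at auxiliary primes of the module of a frame

The module of a frame satisfies the deformation condition of its level (`cond_baseOf`), and at an
admissible set of auxiliary primes it has a Hecke level (`nonempty_heckeLevel`), built from the
auxiliary frames with their group of diamond operators acting.
-/

set_option autoImplicit false
set_option linter.style.haveILetI false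
set_option linter.unusedSectionVars false

noncomputable section

open CongruenceSubgroup
open scoped MatrixGroups Matrix

namespace FLTAgent.Lower.Lift

open IsLocalRing (maximalIdeal ResidueField residue)
open FLTAgent.Lower FLTAgent.Lower.Levels

variable {p : ℕ} [Fact p.Prime] {O : Type} [CommRing O] [IsDomain O] [IsDiscreteValuationRing O]
  [IsAdicComplete (maximalIdeal O) O] [Finite (ResidueField O)] [CharZero O]
  {ρbar : ResidualGaloisRep (ResidueField O)} {N : ℕ} [NeZero N]

theorem auxHyp_of_isAuxSet {n r : ℕ} {Qv : Fin r → ℕ} (h : IsAuxSet p N n ρbar Qv) :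
    AuxHyp p n (levelPrimes p N) ρbar Qv :=
  ⟨h.1, fun i => (h.2 i).1, fun i => (h.2 i).2⟩

/-- The deformation condition at the level of a frame. -/
theorem cond_baseOf (hp : (p : O) ∈ maximalIdeal O) (h : ResHyp p (levelPrimes p N) ρbar)
    (hN : Squarefree N) {loc : LocalType} (hloc : LevelCase p N ρbar loc) {d : ℕ} [NeZero d]
    (F : Frame (1 : (ZMod N)ˣ →* Oˣ) (awPr (levelPrimes p N)) (residue O)
      (fun l => frobTrace ρbar l.1) d) {f : ℤ_[p] →+* O}
    {ρ : GaloisRepAdic (baseOf h (fun _ hl hd => mem_levelPrimes_of_dvd hl hd) F).T}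
    (hρ : (baseOf h (fun _ hl hd => mem_levelPrimes_of_dvd hl hd) F).IsRep f ρ) :
    Cond loc p (unipPrimes p N) (levelPrimes p N) ρ :=
  cond_of_levelCase hp h.ne_two hρ h.absIrr hloc (fun hpN => hpN)
    (fun l hl hlN _ => ⟨hlN, fun h2 => hl.ne_one (Nat.isUnit_iff.mp (hN l (sq l ▸ h2)))⟩)
    fun hpN hno => ord_of_noSystem hp h hno hN hpN (fun _ hl hd => mem_levelPrimes_of_dvd hl hd)
      IsLocalRing.residue_surjective _
      (fun x => ⟨F.combo x, F.combo_mem x,
        (coe_baseOf_emb h (fun _ hl hd => mem_levelPrimes_of_dvd hl hd) F x).symm⟩) hρ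

/-- The level of depth `n` over the module of a frame. -/
theorem nonempty_heckeLevel (hp : (p : O) ∈ maximalIdeal O)
    (h : ResHyp p (levelPrimes p N) ρbar) (hN : Squarefree N) {loc : LocalType}
    (hloc : LevelCase p N ρbar loc) {d : ℕ} [NeZero d]
    (F : Frame (1 : (ZMod N)ˣ →* Oˣ) (awPr (levelPrimes p N)) (residue O)
      (fun l => frobTrace ρbar l.1) d) {f : ℤ_[p] →+* O}
    {ρ : GaloisRepAdic (baseOf h (fun _ hl hd => mem_levelPrimes_of_dvd hl hd) F).T}
    (hρ : (baseOf h (fun _ hl hd => mem_levelPrimes_of_dvd hl hd) F).IsRep f ρ)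
    (hc : Cond loc p (unipPrimes p N) (levelPrimes p N) ρ) {n r : ℕ} {Qv : Fin r → ℕ}
    (hQ : AuxHyp p n (levelPrimes p N) ρbar Qv) :
    Nonempty (HeckeLevel (heckeModOf _ ρ hρ hc) n Qv) := by
  have hM : ∀ l : ℕ, l.Prime → l ∣ N → l ∈ levelPrimes p N :=
    fun _ hl hd => mem_levelPrimes_of_dvd hl hd
  haveI : NeZero (∏ i, Qv i) := ⟨hQ.prod_ne_zero⟩
  haveI : NeZero (N * (∏ i, Qv i) * ∏ i, Qv i) :=
    ⟨mul_ne_zero (mul_ne_zero (NeZero.ne N) (NeZero.ne _)) (NeZero.ne _)⟩
  haveI := isLocalRing_deltaRing (O := O) p n r hp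
  haveI := isAdicComplete_deltaRing (O := O) p n r hp
  haveI : IsNoetherianRing (DeltaRing O p n r) := IsNoetherianRing.of_finite O _
  obtain ⟨θ', hθ⟩ := hQ.exists_stabEig h
  obtain ⟨η, hη⟩ := hQ.exists_eta (O := O)
  obtain ⟨D⟩ := nonempty_auxFrames hp f h hM hQ hθ hη (NeZero.ne d) F
  let Y := D.lattice hp h hM hQ hθ hη
  obtain ⟨ρY, hY⟩ := Y.exists_rep h.ne_two hp f h.absIrr h.det
  have hcY : Cond loc p (unipPrimes p N) (levelPrimes p N ∪ Finset.univ.image Qv) ρY := by
    refine cond_of_levelCase hp h.ne_two hY h.absIrr hloc (fun hpN hd => ?_)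
      (fun l hl hlN hlp => ?_) fun hpN hno => ?_
    · rcases (Fact.out : p.Prime).dvd_mul.mp hd with hd | hd
      rcases (Fact.out : p.Prime).dvd_mul.mp hd with hd | hd
      · exact hpN hd
      all_goals
        obtain ⟨i, hi⟩ := hQ.exists_eq Fact.out hd
        exact hQ.ne_p h.mem i hi
    · have hlQ : ¬ l ∣ (∏ i, Qv i) * ∏ i, Qv i := fun hd => by
        have hd' : l ∣ ∏ i, Qv i := (hl.dvd_mul.mp hd).elim id id
        obtain ⟨i, hi⟩ := hQ.exists_eq hl hd'
        exact hQ.notMem i (hi ▸ hM l hl hlN)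
      exact ⟨(hlN.mul_right _).mul_right _, by
        rw [mul_assoc]
        exact not_sq_dvd_mul hl hN hlQ⟩
    · exact ord_aux_of_noSystem hp h hno hN hpN hM (deltaRes_surjective (O := O) p n r) hQ hθ
        hη.residual _
        (fun x => ⟨D.F.combo x, D.F.combo_mem x, (D.coe_lattice_emb hp h hM hQ hθ hη x).symm⟩) hY
  obtain ⟨φ, hφgen, hφaug⟩ := exists_deltaQuot (O := O) p n r
  refine ⟨heckeLevelOf _ ρ hρ hc h.absIrr Y ρY hY hcY (deltaAug O p n r).toRingHom φ hφaug ?_
    fun i => D.tw_rel hp h hM hQ hθ hη ρY hY hφgen i⟩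
  refine D.latticeLift hp h hM hQ hθ hη _ fun l => ?_
  exact baseOf_act h hM F (MvPolynomial.X l)

end FLTAgent.Lower.Lift
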