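import Fermat.Agent.Lower.Lift.HeckeMod.Points
import Fermat.Agent.Lower.Levels.BaseLevel
import Fermat.Agent.Lower.Levels.Galois
import Fermat.Agent.Lower.Lift.Construct

/-!
# Properties of the Hecke module of a frame at level `N`

Its points are systems of level `N` and it is not special at primes of the level where it is
unramified (`isModular_heckeModOf`); it contains every point of every modular module of the level
(`contains_heckeModOf`), because the systems kill what kills the part of cohomology cut out by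
the frame (`exists_point_lattice`).
-/

set_option autoImplicit false
set_option linter.style.haveILetI false
set_option linter.unusedSectionVars false

noncomputable section

open CongruenceSubgroup CuspForm
open scoped MatrixGroups Matrix

namespace FLTAgent.Lower.Lift

open IsLocalRing (maximalIdeal ResidueField residue)
open FLTAgent.Lower FLTAgent.Lower.Levels

local notation "ℚ̄" => AlgebraicClosure ℚ
local notation "Γℚ" => (AlgebraicClosure ℚ ≃ₐ[ℚ] AlgebraicClosure ℚ)

variable {O : Type} [CommRing O] [IsDomain O] [IsDiscreteValuationRing O]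
  [IsAdicComplete (maximalIdeal O) O] [Finite (ResidueField O)] [CharZero O]
  {p : ℕ} [Fact p.Prime] {ρbar : ResidualGaloisRep (ResidueField O)} {N : ℕ} [NeZero N]

theorem not_dvd_of_notMem_levelPrimes {l : ℕ} (hl : l.Prime) (h : l ∉ levelPrimes p N) :
    ¬ l ∣ N := fun hd =>
  h (Finset.mem_insert_of_mem (Nat.mem_primeFactors.mpr ⟨hl, hd, NeZero.ne N⟩))

/-- Residual traces. -/
theorem residue_trace_of_residual {T : Type} [CommRing T] [IsLocalRing T] [Algebra O T]
    [IsLocalHom (algebraMap O T)] {ρ : GaloisRepAdic T}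
    (he : ρ.residual.IsEquiv (ρbar.baseChangeAlong (ResidueField.map (algebraMap O T)))) (τ : Γℚ) :
    residue T (ρ.trace τ) = ResidueField.map (algebraMap O T)
      (LinearMap.trace (ResidueField O) ρbar.V (ρbar.ρ τ)) := by
  obtain ⟨e⟩ := he
  let φ := ResidueField.map (algebraMap O T)
  have h : (ρbar.baseChangeAlong φ).ρ τ = e.toLinearEquiv.conj (ρ.residual.ρ τ) :=
    LinearMap.ext fun x => by
      rw [LinearEquiv.conj_apply_apply, e.map_apply, LinearEquiv.apply_symm_apply]
  have h1 : LinearMap.trace _ _ ((ρbar.baseChangeAlong φ).ρ τ) =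
      φ (LinearMap.trace (ResidueField O) ρbar.V (ρbar.ρ τ)) := by
    letI := φ.toAlgebra
    exact LinearMap.trace_baseChange _ _
  rw [← h1, h, LinearMap.trace_conj']
  exact (LinearMap.trace_baseChange _ _).symm

variable {d : ℕ} [NeZero d]

/-- The systems of the points of a lattice at level `N`. -/
theorem system_of_point_lattice {R : Type} [CommRing R] [Algebra O R] [Module.Finite O R]
    [Nontrivial R] [Module.IsTorsionFree O R] {X : HeckeLattice p N (levelPrimes p N) ρbar R d} {f : ℤ_[p] →+* O}
    {ρ : GaloisRepAdic X.T} (h : X.IsRep f ρ) (K : Type) [Field K] [CharZero K] (g : X.T →+* K) :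
    ∃ χ : ↥(heckeAlgebra N 2 (↑(levelPrimes p N) : Set ℕ)) →+* K,
      ∀ (l : ℕ) (hl : l.Prime) (hlN : ¬ l ∣ N) (hlS : l ∉ (↑(levelPrimes p N) : Set ℕ))
        (A : ValuationSubring ℚ̄) (φ : Γℚ), A.LiesOverPrime l → A.IsFrobeniusAt φ l →
        χ (heckeAlgebra.T hl hlN hlS) = g (ρ.trace φ) :=
  system_of_point_of_attached h.attached K g

/-- A point of a lattice unramified at a prime of the level is not special there. -/
theorem not_special_lattice {R : Type} [CommRing R] [Algebra O R] [Module.Finite O R]
    [Nontrivial R] [Module.IsTorsionFree O R] (hN : Squarefree N) (hp : (p : O) ∈ maximalIdeal O)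
    (habs : ρbar.IsAbsolutelyIrreducible)
    {X : HeckeLattice p N (levelPrimes p N) ρbar R d} {f : ℤ_[p] →+* O}
    {ρ : GaloisRepAdic X.T} (h : X.IsRep f ρ) (K : Type) [Field K] [CharZero K] (g : X.T →+* K)
    (l : ℕ) (hl : l.Prime) (hlN : l ∣ N) (hlp : l ≠ p)
    (hunr : ∀ A : ValuationSubring ℚ̄, A.LiesOverPrime l → ∀ τ ∈ A.inertiaSubgroupIn ℚ,
      ∀ b : Module.Basis (Fin 2) X.T ρ.V, (matHom ρ b τ).map g = 1)
    (A : ValuationSubring ℚ̄) (φ : Γℚ) (hA : A.LiesOverPrime l) (hφ : A.IsFrobeniusAt φ l) :
    g (ρ.trace φ) ^ 2 ≠ ((l : K) + 1) ^ 2 :=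
  not_special_of_attached hp h.attached (h.residual_absIrr habs) g hl hlN
    (fun hsq => hl.one_lt.ne' (Nat.isUnit_iff.mp (hN l (sq l ▸ hsq)))) hlp hunr hA hφ

omit [IsDomain O] [IsDiscreteValuationRing O] [IsAdicComplete (maximalIdeal O) O]
  [Finite (ResidueField O)] [CharZero O] [Fact p.Prime] [NeZero N] in
/-- A surjection of a local ring onto a nonzero ring is local. -/
theorem isLocalHom_of_surjective_local {A B : Type} [CommRing A] [IsLocalRing A] [CommRing B]
    [Nontrivial B] (f : A →+* B) (hf : Function.Surjective f) : IsLocalHom f := by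
  refine ⟨fun a ha => ?_⟩
  obtain ⟨u, hu⟩ := ha
  obtain ⟨c, hc⟩ := hf ((u⁻¹ : Bˣ) : B)
  by_contra h
  have h1 : IsUnit (1 - a * c) := IsLocalRing.isUnit_one_sub_self_of_mem_nonunits _
    fun h2 => h (isUnit_of_mul_isUnit_left h2)
  exact (h1.map f).ne_zero (by rw [map_sub, map_one, map_mul, ← hu, hc, Units.mul_inv, sub_self])

set_option maxHeartbeats 400000 in
/-- **The module of a frame contains every modular point of level `N`.** -/
theorem exists_point_lattice (hres : ResHyp p (levelPrimes p N) ρbar)
    {X : HeckeLattice p N (levelPrimes p N) ρbar O d}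
    {f : ℤ_[p] →+* O} {ρ : GaloisRepAdic X.T} (h : X.IsRep f ρ)
    (F : Frame (1 : (ZMod N)ˣ →* Oˣ) (awPr (levelPrimes p N)) (residue O)
      (fun l => frobTrace ρbar l.1) d)
    (hact : ∀ s, X.act s = 0 → F.mat s = 0)
    {loc' : LocalType} (B' : HeckeMod loc' p (levelPrimes p N) (unipPrimes p N) ρbar)
    (hB' : IsModular N B')
    (D : Type) [CommRing D] [IsDomain D] [CharZero D] [Algebra O D] (f' : B'.T →ₐ[O] D) :
    ∃ g : X.T →ₐ[O] D, ∀ σ : Γℚ, g (ρ.trace σ) = f' (B'.ρ.trace σ) := by
  classical
  have hpl : ∀ i : AwayIdx (levelPrimes p N), ∃ A : ValuationSubring ℚ̄, A.LiesOverPrime i.1 ∧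
      ∃ φ : Γℚ, A.IsFrobeniusAt φ i.1 := fun i => GalCommon.exists_place_frobenius i.1.2
  choose A hA φ hφ using hpl
  let t : AwayIdx (levelPrimes p N) → B'.T := fun i => B'.ρ.trace (φ i)
  have hres_t : ∀ i, residue B'.T (t i) =
      ResidueField.map (algebraMap O B'.T) (frobTrace ρbar i.1) := fun i => by
    exact (residue_trace_of_residual B'.residual_isEquiv _).trans (congrArg _
      (frobTrace_eq ρbar i.1.2 (hres.unramified _ i.1.2 i.2) (hA i) (hφ i)).symm)
  -- polynomials away from the residual eigenvalues are units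
  have hresaeval : ∀ e : MvPolynomial (AwayIdx (levelPrimes p N)) O,
      residue B'.T (MvPolynomial.aeval t e) = ResidueField.map (algebraMap O B'.T)
        (MvPolynomial.eval₂Hom (residue O) (fun i : AwayIdx (levelPrimes p N) => frobTrace ρbar i.1) e) := fun e =>
    RingHom.congr_fun (MvPolynomial.ringHom_ext
      (f := (residue B'.T).comp (MvPolynomial.aeval (R := O) t).toRingHom)
      (g := (ResidueField.map (algebraMap O B'.T)).comp
        (MvPolynomial.eval₂Hom (residue O) (fun i : AwayIdx (levelPrimes p N) => frobTrace ρbar i.1)))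
      (fun c => by simp [IsLocalRing.ResidueField.map_residue])
      (fun i => by simp [hres_t])) e
  have hunitT : ∀ e : MvPolynomial (AwayIdx (levelPrimes p N)) O,
      e ∉ eigIdeal (residue O) (fun i : AwayIdx (levelPrimes p N) => frobTrace ρbar i.1) →
        IsUnit (MvPolynomial.aeval t e) := by
    intro e he
    by_contra hu
    refine he (mem_eigIdeal.mpr ((map_eq_zero (ResidueField.map (algebraMap O B'.T))).mp ?_))
    rw [← hresaeval, IsLocalRing.residue_eq_zero_iff]
    exact hu
  -- the kernel of the frame is killed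
  let a : AwayIdx (levelPrimes p N) → D := fun i => f' (t i)
  have hkill : ∀ s, X.act s = 0 → MvPolynomial.aeval a s = 0 := by
    intro s hs
    let K := FractionRing D
    haveI : CharZero K := charZero_of_injective_algebraMap (IsFractionRing.injective D K)
    let τ : O →+* K := (algebraMap D K).comp (algebraMap O D)
    let fK : B'.T →+* K := (algebraMap D K).comp f'.toRingHom
    obtain ⟨χ, hχ⟩ := hB'.system_of_point K fK
    have hev : ∀ e, MvPolynomial.eval₂Hom τ (fun i => fK (t i)) e =
        algebraMap D K (MvPolynomial.aeval a e) := fun e =>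
      RingHom.congr_fun (MvPolynomial.ringHom_ext
        (g := (algebraMap D K).comp (MvPolynomial.aeval (R := O) a).toRingHom)
        (fun c => by simp [τ]) (fun i => by simp [a, fK])) e
    have hev' : ∀ e, MvPolynomial.aeval a e = f' (MvPolynomial.aeval t e) := fun e =>
      (MvPolynomial.comp_aeval_apply t f' e).symm
    have h0 := F.eval₂_eq_zero (IsLocalRing.residue_surjective (R := O))
      (fun i => not_dvd_of_notMem_levelPrimes i.1.2 i.2) (fun i hm => i.2 (Finset.mem_coe.1 hm))
      τ χ (fun i => fK (t i)) (fun i => hχ _ _ _ _ (A i) (φ i) (hA i) (hφ i))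
      (fun e he => by
        rw [hev, hev']
        exact fun h1 => (((hunitT e he).map f').ne_zero)
          (IsFractionRing.injective D K (h1.trans (map_zero _).symm)))
      (hact s hs)
    rw [hev] at h0
    exact IsFractionRing.injective D K (h0.trans (map_zero _).symm)
  -- the point, with values in the image of `f'`
  let P : Subalgebra O D := f'.range
  let fP : B'.T →ₐ[O] P := f'.rangeRestrict
  have hfP : Function.Surjective fP := f'.rangeRestrict_surjective
  haveI : Module.Finite O P := Module.Finite.of_surjective fP.toLinearMap hfP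
  haveI : CharZero P := charZero_of_injective_ringHom (f := (algebraMap ℕ P))
    (fun m n hmn => Nat.cast_injective (R := D) (by simpa using congrArg (Subtype.val) hmn))
  haveI : IsLocalRing P := IsLocalRing.of_surjective' (fP : B'.T →+* P) hfP
  haveI hfPloc : IsLocalHom (fP : B'.T →+* P) :=
    isLocalHom_of_surjective_local _ hfP
  haveI : IsNoetherianRing P := IsNoetherianRing.of_finite O P
  haveI : IsNoetherianRing B'.T := IsNoetherianRing.of_finite O B'.T
  let aP : AwayIdx (levelPrimes p N) → P := fun i => fP (t i)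
  have haP : ∀ e, MvPolynomial.aeval aP e = fP (MvPolynomial.aeval t e) := fun e =>
    (MvPolynomial.comp_aeval_apply t fP e).symm
  let g₀ : X.T →ₐ[O] P := Ideal.Quotient.liftₐ _ (MvPolynomial.aeval aP) fun s hs => by
    refine Subtype.ext ?_
    rw [haP]
    exact ((MvPolynomial.comp_aeval_apply t f' s).trans
      (hkill s (RingHom.mem_ker.mp hs)))
  have hg₀ : ∀ s : MvPolynomial (AwayIdx (levelPrimes p N)) O,
      g₀ (Ideal.Quotient.mk _ s) = MvPolynomial.aeval aP s := fun s => rfl
  have hθ : X.θ = fun i => frobTrace ρbar i.1 := funext fun i => by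
    exact (X.trace_eq i (A i) (hA i) (φ i) (hφ i)).symm.trans
      (frobTrace_eq ρbar i.1.2 (hres.unramified _ i.1.2 i.2) (hA i) (hφ i)).symm
  have hg₀loc : IsLocalHom (g₀ : X.T →+* P) := by
    refine ⟨fun x hx => ?_⟩
    obtain ⟨s, rfl⟩ := Ideal.Quotient.mk_surjective x
    refine isUnit_of_imgTheta_ne_zero X.unitAway fun h0 => ?_
    have h1 : MvPolynomial.eval₂Hom (residue O) X.θ s = 0 := h0
    rw [hθ] at h1
    rw [RingHom.coe_coe, hg₀, haP] at hx
    have h2 : residue B'.T (MvPolynomial.aeval t s) = 0 := by rw [hresaeval, h1, map_zero]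
    exact (IsLocalRing.residue_eq_zero_iff _).mp h2 (hfPloc.map_nonunit _ hx)
  refine ⟨P.val.comp g₀, fun σ =>
    congrArg Subtype.val (show g₀ (ρ.trace σ) = fP (B'.ρ.trace σ) from ?_)⟩
  have hdetB : ∀ (l : ℕ), l.Prime → l ≠ p → ∀ (B : ValuationSubring ℚ̄), B.LiesOverPrime l →
      ∀ τ : Γℚ, B.IsFrobeniusAt τ l → LinearMap.det (B'.ρ.ρ τ) = l := fun l hl hlp B hB τ hτ =>
    Lower.det_frobenius Fact.out hl hlp hB B'.cond.det hτ
  have h3 := trace_eq_of_forall_frobenius (ρ.baseChangeAlong (g₀ : X.T →+* P) hg₀loc)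
    (B'.ρ.baseChangeAlong (fP : B'.T →+* P) hfPloc) (levelPrimes p N)
    (fun l hl hlS B hB τ hτ => by
      refine ⟨?_, ?_⟩
      · rw [GaloisRepAdic.trace, GaloisRepAdic.trace, Local.trace_baseChangeAlong,
          Local.trace_baseChangeAlong]
        show (g₀ : X.T →+* P) (ρ.trace τ) = (fP : B'.T →+* P) (B'.ρ.trace τ)
        rw [
          h.trace_frobenius (awayIdx hl hlS) hB hτ]
        show g₀ (Ideal.Quotient.mk _ (MvPolynomial.X _)) = _
        rw [hg₀, MvPolynomial.aeval_X]
        refine Subtype.ext ?_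
        show f' (t _) = f' (B'.ρ.trace τ)
        obtain ⟨χ, hχ⟩ := hB'.system_of_point (FractionRing D)
          ((algebraMap D (FractionRing D)).comp f'.toRingHom)
        haveI : CharZero (FractionRing D) :=
          charZero_of_injective_algebraMap (IsFractionRing.injective D _)
        have hlN := not_dvd_of_notMem_levelPrimes (p := p) (N := N) hl hlS
        exact IsFractionRing.injective D (FractionRing D)
          ((hχ l hl hlN (fun hm => hlS (Finset.mem_coe.1 hm)) _ _
            (hA (awayIdx hl hlS)) (hφ (awayIdx hl hlS))).symm.trans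
            (hχ l hl hlN (fun hm => hlS (Finset.mem_coe.1 hm)) B τ hB hτ))
      · letI := (g₀ : X.T →+* P).toAlgebra
        have e1 : LinearMap.det ((ρ.baseChangeAlong (g₀ : X.T →+* P) hg₀loc).ρ τ) =
            (g₀ : X.T →+* P) (LinearMap.det (ρ.ρ τ)) := LinearMap.det_baseChange _
        letI := (fP : B'.T →+* P).toAlgebra
        have e2 : LinearMap.det ((B'.ρ.baseChangeAlong (fP : B'.T →+* P) hfPloc).ρ τ) =
            (fP : B'.T →+* P) (LinearMap.det (B'.ρ.ρ τ)) := LinearMap.det_baseChange _
        rw [e1, e2, h.det_frobenius (awayIdx hl hlS) hB hτ,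
          hdetB l hl (fun he => hlS (he ▸ Finset.mem_insert_self _ _)) B hB τ hτ,
          map_natCast, map_natCast]) σ
  rw [GaloisRepAdic.trace, GaloisRepAdic.trace, Local.trace_baseChangeAlong,
    Local.trace_baseChangeAlong] at h3
  exact h3

/-- The module of a lattice at level `N` is modular. -/
theorem isModular_heckeModOf (hN : Squarefree N) (hp : (p : O) ∈ maximalIdeal O)
    (habs : ρbar.IsAbsolutelyIrreducible) {loc : LocalType}
    {X : HeckeLattice p N (levelPrimes p N) ρbar O d} {f : ℤ_[p] →+* O} {ρ : GaloisRepAdic X.T}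
    (h : X.IsRep f ρ) (hc : Cond loc p (unipPrimes p N) (levelPrimes p N) ρ) :
    IsModular N (heckeModOf X ρ h hc) where
  system_of_point K _ _ g := system_of_point_lattice h K g
  not_special K _ _ g l hl hlN hlp hunr A φ hA hφ :=
    not_special_lattice hN hp habs h K g l hl hlN hlp hunr A φ hA hφ

/-- The module of a frame contains every modular module of the level. -/
theorem contains_heckeModOf (hres : ResHyp p (levelPrimes p N) ρbar) {loc : LocalType}
    {X : HeckeLattice p N (levelPrimes p N) ρbar O d} {f : ℤ_[p] →+* O} {ρ : GaloisRepAdic X.T}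
    (h : X.IsRep f ρ) (hc : Cond loc p (unipPrimes p N) (levelPrimes p N) ρ)
    (F : Frame (1 : (ZMod N)ˣ →* Oˣ) (awPr (levelPrimes p N)) (residue O)
      (fun l => frobTrace ρbar l.1) d)
    (hact : ∀ s, X.act s = 0 → F.mat s = 0)
    {loc' : LocalType} (B' : HeckeMod loc' p (levelPrimes p N) (unipPrimes p N) ρbar)
    (hB' : IsModular N B') : Contains (heckeModOf X ρ h hc) B' :=
  fun D _ _ _ _ f' => exists_point_lattice hres h F hact B' hB' D f'

/-- The same when the family of the frame is indexed by an equal set of primes. -/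
theorem contains_heckeModOf_of_eq (hres : ResHyp p (levelPrimes p N) ρbar) {loc : LocalType}
    {X : HeckeLattice p N (levelPrimes p N) ρbar O d} {f : ℤ_[p] →+* O} {ρ : GaloisRepAdic X.T}
    (h : X.IsRep f ρ) (hc : Cond loc p (unipPrimes p N) (levelPrimes p N) ρ) {S' : Finset ℕ}
    (hS : S' = levelPrimes p N)
    (F : Frame (1 : (ZMod N)ˣ →* Oˣ) (awPr S') (residue O) (fun l => frobTrace ρbar l.1) d)
    (up : AwayIdx (levelPrimes p N) → AwayPrimes S') (hup : ∀ l, (up l).1 = l.1)
    (hact : ∀ s, X.act s = 0 → F.mat (MvPolynomial.rename up s) = 0)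
    {loc' : LocalType} (B' : HeckeMod loc' p (levelPrimes p N) (unipPrimes p N) ρbar)
    (hB' : IsModular N B') : Contains (heckeModOf X ρ h hc) B' := by
  subst hS
  obtain rfl : up = id := funext fun l => Subtype.ext (hup l)
  exact contains_heckeModOf hres h hc F (fun s hs => by simpa using hact s hs) B' hB'

end FLTAgent.Lower.Lift
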