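import Fermat.Agent.Lower.Lift.HeckeMod.AuxModule
import Fermat.Agent.Lower.Lift.HeckeMod.Contains

/-!
# The Hecke module of level `N`

`exists_heckeMod_proof`: when the residual representation occurs in squarefree level `N` there is
a modular Hecke module of that level which contains every other one and has levels at all
admissible sets of auxiliary primes.  It is the module of a frame (`Contains`, `AuxModule`).
-/

set_option autoImplicit false
set_option linter.style.haveILetI false

noncomputable section

namespace FLTAgent.Lower.Lift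

open IsLocalRing (maximalIdeal ResidueField residue)
open FLTAgent.Lower FLTAgent.Lower.Levels

variable {p : ℕ} [Fact p.Prime] {O : Type} [CommRing O] [IsDomain O] [IsDiscreteValuationRing O]
  [IsAdicComplete (maximalIdeal O) O] [Finite (ResidueField O)] [CharZero O]

/-- **Existence, maximality and levels of the module of level `N`.** -/
theorem exists_heckeMod_proof (hp2 : p ≠ 2) (hp : (p : O) ∈ maximalIdeal O)
    {ρbar : ResidualGaloisRep (ResidueField O)} {Smin : Finset ℕ} (hres : Residual p Smin ρbar)
    {N : ℕ} [NeZero N] (hN : Squarefree N) (hSmin : Smin ⊆ N.primeFactors)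
    {loc : LocalType} (hloc : LevelCase p N ρbar loc) (hsys : HasSystem p N ρbar) :
    ∃ B : HeckeMod loc p (levelPrimes p N) (unipPrimes p N) ρbar,
      IsModular N B ∧
      (∀ (loc' : LocalType) (B' : HeckeMod loc' p (levelPrimes p N) (unipPrimes p N) ρbar),
        IsModular N B' → Contains B B') ∧
      ∀ (n r : ℕ) (Qv : Fin r → ℕ), IsAuxSet p N n ρbar Qv → Nonempty (HeckeLevel B n Qv) := by
  have h := resHyp_of_residual hp2 hp hres hSmin (Finset.Subset.refl (levelPrimes p N))
  obtain ⟨d, hd, ⟨F⟩⟩ := exists_base_frame h hsys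
  haveI : NeZero d := ⟨hd⟩
  obtain ⟨f⟩ := nonempty_padicInt_hom (p := p) hp
  obtain ⟨ρ, hρ⟩ := (baseOf h (fun _ hl hd => mem_levelPrimes_of_dvd hl hd) F).exists_rep hp2 hp f
    h.absIrr h.det
  have hc := cond_baseOf hp h hN hloc F hρ
  exact ⟨heckeModOf _ ρ hρ hc, isModular_heckeModOf hN hp h.absIrr hρ hc,
    fun loc' B' hB' => contains_heckeModOf h hρ hc F
      (fun s hs => (baseOf_act h _ F s).symm.trans hs) B' hB',
    fun n r Qv hQ => nonempty_heckeLevel hp h hN hloc F hρ hc (auxHyp_of_isAuxSet hQ)⟩

end FLTAgent.Lower.Lift
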