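import Fermat.Agent.Lower.Levels.Frame
import Fermat.Agent.Lower.Levels.Triv
import Fermat.Agent.HeckeH.Eigen
import Fermat.Agent.Reps.Tate
import Fermat.Agent.Reps.Coeff
import Fermat.Agent.Local.Eigenforms

/-!
# Systems of level `N` and parts of cohomology

A polynomial in the Hecke family killing `H¹` vanishes at every system of the full Hecke algebra
(`eval₂_eq_zero_of_famAct_eq_zero`); systems of a subalgebra extend to the algebraic closure
(`exists_extend_system`); hence a polynomial whose matrix on the part at the residual eigenvalues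
vanishes is killed by every system lifting them (`Frame.eval₂_eq_zero`).
-/

set_option autoImplicit false
set_option linter.style.haveILetI false

noncomputable section

open CongruenceSubgroup
open scoped MatrixGroups Matrix

namespace FLTAgent.Lower.Levels

open IsLocalRing (maximalIdeal ResidueField residue)
open FLTAgent.Reps (TZ heckeGenOf)

variable {N : ℕ} [NeZero N] {O K : Type} [CommRing O] [Field K] [CharZero K] {ι : Type}

/-- A polynomial in the Hecke family killing `H¹` vanishes at every system of the full algebra. -/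
theorem eval₂_eq_zero_of_famAct_eq_zero (τ : O →+* K) (χ : TZ N →+* K) (pr : ι → Nat.Primes)
    (s : MvPolynomial ι O)
    (hs : ∀ x : H1 O O (tchi N O), famAct (1 : (ZMod N)ˣ →* Oˣ) pr O s x = 0) :
    MvPolynomial.eval₂Hom τ (fun i => χ (heckeGenOf N (pr i))) s = 0 := by
  classical
  obtain ⟨v, hv0, hv, -⟩ := HeckeH.exists_eigen_sign N χ (e := 1) (Or.inl rfl)
  have h1 : ∀ u : (ZMod N)ˣ,
      τ (((1 : (ZMod N)ˣ →* Oˣ) u : Oˣ) : O) = (((1 : (ZMod N)ˣ →* Kˣ) u : Kˣ) : K) :=
    fun u => by simp
  let f : O →ₛₗ[τ] K := τ.toSemilinearMap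
  let G : H1 O O (tchi N O) →ₛₗ[τ] H1 K K (tchi N K) := coefMap f h1
  let xO : Fin (Period.rankH N) → H1 O O (tchi N O) := fun j =>
    (h1Triv N O O).symm ((Period.castH N O (Period.coordH N j) : Period.H N O O) :
      Additive (Gamma0 N) →+ O)
  have hG : ∀ j, h1Triv N K K (G (xO j)) =
      ((Period.castH N K (Period.coordH N j) : Period.H N K K) : Additive (Gamma0 N) →+ K) := by
    intro j
    refine AddMonoidHom.ext fun γ => ?_
    obtain ⟨γ, rfl⟩ := Additive.ofMul.surjective γ
    obtain ⟨c, hc⟩ := Submodule.Quotient.mk_surjective _ (xO j)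
    have hc' : (c : Gamma0 N → O) γ =
        ((Period.castH N O (Period.coordH N j) : Period.H N O O) :
          Additive (Gamma0 N) →+ O) (Additive.ofMul γ) := by
      have h := DFunLike.congr_fun
        ((h1Triv N O O).apply_symm_apply ((Period.castH N O (Period.coordH N j) :
          Period.H N O O) : Additive (Gamma0 N) →+ O)) (Additive.ofMul γ)
      rw [show (h1Triv N O O).symm _ = Submodule.Quotient.mk c from hc.symm, h1Triv_mk] at h
      exact h
    rw [← hc, show G (Submodule.Quotient.mk c) =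
      Submodule.Quotient.mk (Z1.mapCoef f (map_chi h1) c) from rfl, h1Triv_mk]
    show τ ((c : Gamma0 N → O) γ) = _
    rw [hc']
    exact map_intCast τ _
  set φ : Period.H N K K := (Period.evalEquiv N K K).symm v with hφ
  have hφval : ∀ j, Period.evalEquiv N K K φ j = v j := fun j => by
    rw [hφ, LinearEquiv.apply_symm_apply]
  have hφsum : φ = ∑ j, v j • Period.castH N K (Period.coordH N j) := by
    refine (Period.evalEquiv N K K).injective (funext fun i => ?_)
    rw [hφval, map_sum, Finset.sum_apply, Finset.sum_eq_single i]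
    · rw [map_smul, Pi.smul_apply, Period.evalEquiv_apply, smul_eq_mul]
      show v i = v i * ((Period.coordH N i : Additive (Gamma0 N) →+ ℤ)
        (Additive.ofMul (Period.gen N i)) : K)
      rw [Period.coordH_gen, if_pos rfl, Int.cast_one, mul_one]
    · intro j _ hj
      rw [map_smul, Pi.smul_apply, Period.evalEquiv_apply, smul_eq_mul]
      show v j * ((Period.coordH N j : Additive (Gamma0 N) →+ ℤ)
        (Additive.ofMul (Period.gen N i)) : K) = 0
      rw [Period.coordH_gen, if_neg hj, Int.cast_zero, mul_zero]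
    · exact fun h => absurd (Finset.mem_univ i) h
  let x : H1 K K (tchi N K) := ∑ j, v j • G (xO j)
  have hxφ : h1Triv N K K x = (φ : Additive (Gamma0 N) →+ K) := by
    rw [hφsum, Submodule.coe_sum, map_sum]
    exact Finset.sum_congr rfl fun j _ => by rw [map_smul, hG, Submodule.coe_smul]
  have heig : ∀ i, famAct (1 : (ZMod N)ˣ →* Kˣ) pr K (MvPolynomial.X i) x =
      χ (heckeGenOf N (pr i)) • x := by
    intro i
    refine (h1Triv N K K).injective ?_
    rw [famAct_X, h1Triv_heckeOp, map_smul, hxφ, ← HeckeH.coe_heckeH, ← Submodule.coe_smul,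
      ← Reps.heckeEnd_heckeGenOf]
    refine congrArg Subtype.val ((Period.evalEquiv N K K).injective (funext fun j => ?_))
    rw [map_smul, Pi.smul_apply]
    show Period.evalEquiv N K K (HeckeH.matAct N K K (HeckeH.heckeMatHom N _) φ) j = _
    rw [HeckeH.evalEquiv_matAct, hφval]
    simp only [hφval]
    refine Eq.trans ?_ ((congrFun (hv (heckeGenOf N (pr i))) j).trans (Pi.smul_apply _ _ _))
    simp [Matrix.mulVec, dotProduct, zsmul_eq_mul]
  have h0 : famAct (1 : (ZMod N)ˣ →* Kˣ) pr K (MvPolynomial.map τ s) x = 0 := by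
    rw [map_sum]
    refine Finset.sum_eq_zero fun j _ => ?_
    rw [map_smul, ← coefMap_famAct f h1 pr s (xO j), hs, map_zero, smul_zero]
  rw [act_eigen heig] at h0
  rcases smul_eq_zero.mp h0 with h | h
  · rw [MvPolynomial.eval_map] at h
    exact h
  · exfalso
    rw [h, map_zero] at hxφ
    have hz : φ = 0 := Subtype.ext hxφ.symm
    exact hv0 (funext fun j => by rw [← hφval j, hz, map_zero])

/-- A system of a subalgebra of the Hecke algebra extends to the algebraic closure. -/
theorem exists_extend_system {S : Set ℕ} (χ : ↥(CuspForm.heckeAlgebra N 2 S) →+* K) :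
    ∃ χ' : TZ N →+* AlgebraicClosure K, ∀ (l : ℕ) (hl : l.Prime) (hlN : ¬ l ∣ N) (hlS : l ∉ S),
      χ' (heckeGenOf N ⟨l, hl⟩) =
        algebraMap K (AlgebraicClosure K) (χ (CuspForm.heckeAlgebra.T hl hlN hlS)) := by
  obtain ⟨χ', hχ'⟩ := Reps.exists_ringHom_extension (Local.inclS_injective (N := N) S)
    (Local.inclS_isIntegral S) ((algebraMap K (AlgebraicClosure K)).comp χ)
  refine ⟨χ', fun l hl hlN hlS => ?_⟩
  rw [Reps.heckeGenOf_T N hl hlN]
  exact RingHom.congr_fun hχ' (CuspForm.heckeAlgebra.T hl hlN hlS)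

/-- A polynomial whose matrix on the part vanishes is killed by every system lifting the residual
eigenvalues. -/
theorem Frame.eval₂_eq_zero [IsLocalRing O] [IsNoetherianRing O]
    [IsAdicComplete (maximalIdeal O) O] {k : Type} [Field k] {σ : O →+* k}
    (hσ : Function.Surjective σ) {pr : ι → Nat.Primes} {θ : ι → k} {d : ℕ}
    (F : Frame (1 : (ZMod N)ˣ →* Oˣ) pr σ θ d) {S : Set ℕ}
    (hN : ∀ i, ¬ (pr i : ℕ) ∣ N) (hS : ∀ i, (pr i : ℕ) ∉ S)
    (τ : O →+* K) (χ : ↥(CuspForm.heckeAlgebra N 2 S) →+* K) (a : ι → K)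
    (ha : ∀ i, χ (CuspForm.heckeAlgebra.T (pr i).2 (hN i) (hS i)) = a i)
    (hunit : ∀ e, e ∉ eigIdeal σ θ → MvPolynomial.eval₂Hom τ a e ≠ 0)
    {s : MvPolynomial ι O} (hs : F.mat s = 0) : MvPolynomial.eval₂Hom τ a s = 0 := by
  haveI : (eigIdeal σ θ).IsMaximal := isMaximal_eigIdeal hσ θ
  have hm : eigIdeal σ θ ≠ ⊤ := (isMaximal_eigIdeal hσ θ).ne_top
  obtain ⟨e, he⟩ := exists_isProj (famAct (1 : (ZMod N)ˣ →* Oˣ) pr O) (eigIdeal σ θ)
  obtain ⟨χ', hχ'⟩ := exists_extend_system χ
  let j : K →+* AlgebraicClosure K := algebraMap K (AlgebraicClosure K)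
  have hkill : ∀ x : H1 O O (tchi N O),
      famAct (1 : (ZMod N)ˣ →* Oˣ) pr O (s * e) x = 0 := by
    intro x
    rw [map_mul, Module.End.mul_apply]
    obtain ⟨c, hc⟩ := F.span _ (he.mem_part hm x)
    rw [← hc]
    show famAct (1 : (ZMod N)ˣ →* Oˣ) pr O s (F.combo c) = 0
    rw [← F.combo_mat, hs, Matrix.zero_mulVec, map_zero]
  have h := eval₂_eq_zero_of_famAct_eq_zero (j.comp τ) χ' pr (s * e) hkill
  have hfun : (fun i => χ' (heckeGenOf N (pr i))) = fun i => j (a i) :=
    funext fun i => (hχ' _ (pr i).2 (hN i) (hS i)).trans (congrArg j (ha i))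
  have hcomp : MvPolynomial.eval₂Hom (j.comp τ) (fun i => j (a i)) =
      j.comp (MvPolynomial.eval₂Hom τ a) :=
    MvPolynomial.ringHom_ext (fun c => by simp) (fun i => by simp)
  rw [hfun, hcomp, RingHom.comp_apply, map_eq_zero, map_mul] at h
  exact (mul_eq_zero.mp h).resolve_right (hunit e (he.not_mem hm))

end FLTAgent.Lower.Levels
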